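import Fermat.Agent.S19.Integ.Num

set_option autoImplicit false

/-!
# S19 / INTEG / Main : `e(x, ·) ∈ span_A(O)`
-/

noncomputable section

namespace Fermat.Agent.S19

open AlgebraicCurve ModularCurve
open Fermat.Agent.S24 (Kb FN IsFF1 jF)
open Fermat.Agent.GES (GQ galF)
open Fermat.Agent.S17.WMW (aG)
open Fermat.Agent.S18 (IntA SmallA)
open Fermat.Agent.DIV
open Fermat.Agent.RL (pt Eff LSpace)

variable (N : ℕ) [NeZero N]

/-- a representative far from `SE`, with a Gauss-unit function. -/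
theorem exists_far_rep (ℓ : ℕ) [hℓ : Fact ℓ.Prime] (m : ℤ) (hm : 0 < m) (hL3 : L3Statement N ℓ)
    (A : ValuationSubring Kb) (hA : A.LiesOverPrime ℓ) (x : TM N m) :
    ∃ (D : Divisor.degZero (K := Kb) (F := FN N)) (f : FN N), IsRep N m x.1 D f ∧
      (∀ P, (D : Divisor Kb (FN N)) P ≠ 0 → ∀ Q ∈ SE N m, ¬ Close A (jv N P) (jv N Q)) ∧
      GInt A f ∧ GInt A f⁻¹ := by
  classical
  have hSEfin := SE_finite N hm.ne'
  obtain ⟨D, hDx, hDfar⟩ := hL3 A hA (hSEfin.toFinset.image (jv N)) x.1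
  have hfar : ∀ P, (D : Divisor Kb (FN N)) P ≠ 0 → ∀ Q ∈ SE N m, ¬ Close A (jv N P) (jv N Q) :=
    fun P hP Q hQ => hDfar P hP _ (Finset.mem_image_of_mem _ (hSEfin.mem_toFinset.2 hQ))
  obtain ⟨f₀, hf₀⟩ := exists_isDiv_of_smul_eq_zero N m D (by
    rw [hDx]; exact (Submodule.mem_torsionBy_iff _ _).1 x.2)
  obtain ⟨c, a, b, hc, ha, hb, ha', hb', hfe⟩ :=
    Fermat.Agent.GES.exists_normal_form N hℓ.out A hA f₀ hf₀.1
  have ha0 : a ≠ 0 := Fermat.Agent.GES.rel_ne_zero ha'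
  have hb0 : b ≠ 0 := Fermat.Agent.GES.rel_ne_zero hb'
  have hf : IsDiv (a / b) (m • (D : Divisor Kb (FN N))) := by
    have h1 := hf₀.const_mul N (inv_ne_zero hc)
    have h2 : algebraMap Kb (FN N) c⁻¹ * f₀ = a / b := by
      rw [hfe, ← mul_assoc, ← map_mul, inv_mul_cancel₀ hc, map_one, one_mul]
    rwa [h2] at h1
  refine ⟨D, a / b, ⟨hDx, hf, fun v hv => ?_⟩, hfar, ⟨a, b, ha, hb, hb', div_mul_cancel₀ _ hb0⟩,
    ⟨b, a, hb, ha, ha', by rw [inv_div, div_mul_cancel₀ _ ha0]⟩⟩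
  by_contra hne
  exact hfar v hne v hv (Close.refl A _)

/-- **INTEG**. -/
theorem integ (ℓ : ℕ) [hℓ : Fact ℓ.Prime] (m : ℤ) (hm : 0 < m) (hL1 : L1Statement N ℓ)
    (hQ : QIntStatement N ℓ) (hL3 : L3Statement N ℓ) (hLat : LatStatement N ℓ)
    (hNorm : NormStatement) (hPch : PchStatement) : IntegStatement N ℓ m := by
  intro e he A hA x
  classical
  have hfinM := finite_TM N hm.ne'
  obtain ⟨D, f, hrep, hfar, hfG, hfG'⟩ := exists_far_rep N ℓ m hm hL3 A hA x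
  obtain ⟨φ', hφ', hden⟩ := den N ℓ m hm hL1 hLat hNorm A hA
  have hnum := num N ℓ m hm hL1 hQ hLat hPch A hA (D : Divisor Kb (FN N)) hfar f hrep.2.1 hfG hfG'
  have hW := fun y => he x y D f (φ' y) hrep (hφ' y)
  have hP : ∀ P ∈ (D : Divisor Kb (FN N)).support, ∀ Q ∈ SE N m, ¬ Close A (jv N P) (jv N Q) :=
    fun P hP => hfar P (Finsupp.mem_support_iff.1 hP)
  have key : e x = (fun y : TM N m => evD (hFF N) (Ed N y.1) f) *
      ∏ P ∈ (D : Divisor Kb (FN N)).support,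
        (fun y : TM N m => valAt (hFF N) P (φ' y) ^ (-((D : Divisor Kb (FN N)) P))) := by
    funext y
    rw [Pi.mul_apply, Finset.prod_apply, ← hW y]
    have h1 : evD (hFF N) (D : Divisor Kb (FN N)) (φ' y) *
        ∏ P ∈ (D : Divisor Kb (FN N)).support,
          valAt (hFF N) P (φ' y) ^ (-((D : Divisor Kb (FN N)) P)) = 1 := by
      unfold evD Finsupp.prod
      rw [← Finset.prod_mul_distrib]
      apply Finset.prod_eq_one
      intro P hPs
      rw [zpow_neg, mul_inv_cancel₀ (zpow_ne_zero _ ((hden P (hP P hPs)).2 y).1)]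
    rw [mul_assoc, h1, mul_one]
  rw [key]
  refine mul_mem_OA hnum (prod_mem_OA _ _ fun P hPs => ?_)
  exact zpow_mem_OA (hden P (hP P hPs)).1 (fun y => ((hden P (hP P hPs)).2 y).1)
    (fun y => ((hden P (hP P hPs)).2 y).2) _

end Fermat.Agent.S19
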