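import Fermat.Agent.S19.Defs

set_option autoImplicit false

/-!
# S19 / INTEG / Alg : `OA A Y` is an `A`-algebra, stable under inverses of functions with unit values and under
"norms" of `A`-linear combinations of equivariant functions.
-/

noncomputable section

namespace Fermat.Agent.S19

open Fermat.Agent.S24 (Kb)
open Fermat.Agent.GES (GQ)

variable {A : ValuationSubring Kb} {Y : Type} [MulAction GQ Y]

theorem smul_apply_OA (a : A) (φ : Y → Kb) (y : Y) : (a • φ) y = (a : Kb) * φ y := rfl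

theorem IsEqA.mem_OA {φ : Y → Kb} (h : IsEqA A φ) : φ ∈ OA A Y := Submodule.subset_span h

theorem IsEqA.one : IsEqA A (1 : Y → Kb) := ⟨fun σ _ => (map_one σ).symm, fun _ => A.one_mem⟩

theorem IsEqA.mul {φ ψ : Y → Kb} (h : IsEqA A φ) (h' : IsEqA A ψ) : IsEqA A (φ * ψ) :=
  ⟨fun σ y => by simp only [Pi.mul_apply, h.1, h'.1, map_mul], fun y => A.mul_mem _ _ (h.2 y) (h'.2 y)⟩

theorem one_mem_OA : (1 : Y → Kb) ∈ OA A Y := IsEqA.one.mem_OA

theorem mul_mem_OA {φ ψ : Y → Kb} (h : φ ∈ OA A Y) (h' : ψ ∈ OA A Y) : φ * ψ ∈ OA A Y := by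
  unfold OA at *
  induction h using Submodule.span_induction with
  | mem φ hφ =>
    induction h' using Submodule.span_induction with
    | mem ψ hψ => exact Submodule.subset_span (IsEqA.mul hφ hψ)
    | zero => rw [mul_zero]; exact Submodule.zero_mem _
    | add a b _ _ ha hb => rw [mul_add]; exact Submodule.add_mem _ ha hb
    | smul c a _ ha =>
      have : φ * (c • a) = c • (φ * a) := by
        funext y; simp only [Pi.mul_apply, smul_apply_OA]; ring
      rw [this]; exact Submodule.smul_mem _ _ ha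
  | zero => rw [zero_mul]; exact Submodule.zero_mem _
  | add a b _ _ ha hb => rw [add_mul]; exact Submodule.add_mem _ ha hb
  | smul c a _ ha =>
    have : (c • a) * ψ = c • (a * ψ) := by
      funext y; simp only [Pi.mul_apply, smul_apply_OA]; ring
    rw [this]; exact Submodule.smul_mem _ _ ha

theorem const_mem_OA {a : Kb} (ha : a ∈ A) : (fun _ : Y => a) ∈ OA A Y := by
  have : (fun _ : Y => a) = (⟨a, ha⟩ : A) • (1 : Y → Kb) := by
    funext y; rw [smul_apply_OA, Pi.one_apply, mul_one]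
  rw [this]; exact Submodule.smul_mem _ _ one_mem_OA

theorem pow_mem_OA {φ : Y → Kb} (h : φ ∈ OA A Y) (n : ℕ) : φ ^ n ∈ OA A Y := by
  induction n with
  | zero => rw [pow_zero]; exact one_mem_OA
  | succ n ih => rw [pow_succ]; exact mul_mem_OA ih h

theorem prod_mem_OA {ι : Type} (s : Finset ι) (φ : ι → Y → Kb) (h : ∀ i ∈ s, φ i ∈ OA A Y) :
    ∏ i ∈ s, φ i ∈ OA A Y := by
  classical
  induction s using Finset.induction_on with
  | empty => rw [Finset.prod_empty]; exact one_mem_OA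
  | insert a s ha ih =>
    rw [Finset.prod_insert ha]
    exact mul_mem_OA (h a (Finset.mem_insert_self a s))
      (ih fun i hi => h i (Finset.mem_insert_of_mem hi))

/-- evaluation of a polynomial with coefficients in `A` at an element of `OA`. -/
theorem aeval_mem_OA {φ : Y → Kb} (h : φ ∈ OA A Y) (p : Polynomial A) :
    Polynomial.aeval φ p ∈ OA A Y := by
  induction p using Polynomial.induction_on' with
  | add p q hp hq => rw [map_add]; exact Submodule.add_mem _ hp hq
  | monomial n a =>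
    rw [Polynomial.aeval_monomial]
    have : (algebraMap A (Y → Kb)) a * φ ^ n = a • φ ^ n := by
      rw [Algebra.smul_def]
    rw [this]
    exact Submodule.smul_mem _ _ (pow_mem_OA h n)

/-- a function of `OA` whose values are units of `A` is a unit of `OA`. -/
theorem inv_mem_OA [Finite Y] {φ : Y → Kb} (h : φ ∈ OA A Y) (h0 : ∀ y, φ y ≠ 0)
    (hinv : ∀ y, (φ y)⁻¹ ∈ A) : φ⁻¹ ∈ OA A Y := by
  classical
  have := Fintype.ofFinite Y
  -- `p = ∏ (X - (φ y)⁻¹)`, `p(φ⁻¹) = 0`
  let p : Polynomial A := ∏ y : Y, (Polynomial.X - Polynomial.C (⟨(φ y)⁻¹, hinv y⟩ : A))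
  have hpm : p.Monic := Polynomial.monic_prod_of_monic _ _ fun y _ => Polynomial.monic_X_sub_C _
  have hroot : ∀ y, Polynomial.aeval ((φ y)⁻¹) p = 0 := by
    intro y
    simp only [p, map_prod, map_sub, Polynomial.aeval_X, Polynomial.aeval_C]
    apply Finset.prod_eq_zero (Finset.mem_univ y)
    exact sub_self _
  -- reverse: `q(φ) = φ^n p(φ⁻¹)`; write `p = X^n + r`, `deg r < n`
  set n := p.natDegree with hn
  -- φ⁻¹ = - ∑_{i<n} a_i φ^{n-1-i}
  have key : φ⁻¹ = - ∑ i ∈ Finset.range n, (p.coeff i) • φ ^ (n - 1 - i) := by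
    funext y
    have h1 := hroot y
    rw [Polynomial.aeval_eq_sum_range, Finset.sum_range_succ, ← hn] at h1
    have h2 : p.coeff n = 1 := hpm.coeff_natDegree
    rw [h2, one_smul] at h1
    have hy := h0 y
    simp only [Pi.inv_apply, Pi.neg_apply, Finset.sum_apply, smul_apply_OA, Pi.pow_apply]
    have h3 : (φ y)⁻¹ = (φ y) ^ (n - 1) * ((φ y)⁻¹) ^ n := by
      rcases Nat.eq_zero_or_pos n with h0' | hpos
      · exfalso
        rw [h0'] at h1
        simp at h1
      · obtain ⟨k, hk⟩ : ∃ k, n = k + 1 := ⟨n - 1, by omega⟩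
        rw [hk, Nat.add_sub_cancel, pow_succ, ← mul_assoc, ← mul_pow, mul_inv_cancel₀ hy, one_pow,
          one_mul]
    rw [h3, eq_neg_of_add_eq_zero_right h1, mul_neg, Finset.mul_sum]
    congr 1
    apply Finset.sum_congr rfl
    intro i hi
    rw [Finset.mem_range] at hi
    have h4 : (p.coeff i) • ((φ y)⁻¹) ^ i = ((p.coeff i : A) : Kb) * ((φ y)⁻¹) ^ i := rfl
    rw [h4]
    have h5 : (φ y) ^ (n - 1) = (φ y) ^ (n - 1 - i) * (φ y) ^ i := by
      rw [← pow_add]; congr 1; omega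
    rw [h5]
    have h6 : (φ y) ^ i * ((φ y)⁻¹) ^ i = 1 := by rw [← mul_pow, mul_inv_cancel₀ hy, one_pow]
    calc (φ y) ^ (n - 1 - i) * (φ y) ^ i * (((p.coeff i : A) : Kb) * ((φ y)⁻¹) ^ i)
        = ((p.coeff i : A) : Kb) * (φ y) ^ (n - 1 - i) * ((φ y) ^ i * ((φ y)⁻¹) ^ i) := by ring
      _ = _ := by rw [h6, mul_one]
  rw [key]
  exact Submodule.neg_mem _ (Submodule.sum_mem _ fun i _ => Submodule.smul_mem _ _ (pow_mem_OA h _))

theorem zpow_mem_OA [Finite Y] {φ : Y → Kb} (h : φ ∈ OA A Y) (h0 : ∀ y, φ y ≠ 0)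
    (hinv : ∀ y, (φ y)⁻¹ ∈ A) (n : ℤ) : (fun y => φ y ^ n) ∈ OA A Y := by
  cases n with
  | ofNat n =>
    have : (fun y => φ y ^ (Int.ofNat n)) = φ ^ n := by
      funext y; simp
    rw [this]; exact pow_mem_OA h n
  | negSucc n =>
    have : (fun y => φ y ^ (Int.negSucc n)) = (φ⁻¹) ^ (n + 1) := by
      funext y; simp [zpow_negSucc]
    rw [this]; exact pow_mem_OA (inv_mem_OA h h0 hinv) _

end Fermat.Agent.S19
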