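import Fermat.Agent.S19.Integ.Alg

set_option autoImplicit false

/-!
# S19 / INTEG / ProdEval : `y ↦ ∏_{z ∈ 𝔈 y} (∑ c_i η_i(z))` lies in `OA A Y`
-/

noncomputable section

namespace Fermat.Agent.S19

open Fermat.Agent.S24 (Kb)
open Fermat.Agent.GES (GQ)
open MvPolynomial

variable {A : ValuationSubring Kb} {Y Z : Type} [MulAction GQ Y] [MulAction GQ Z]

/-- the polynomial `∏_{z ∈ E} (∑ η_i(z) X_i)`. -/
def pePoly {d : ℕ} (η : Fin d → Z → Kb) (E : Z →₀ ℕ) : MvPolynomial (Fin d) Kb :=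
  E.prod fun z k => (∑ i, C (η i z) * X i) ^ k

theorem eval_pePoly {d : ℕ} (η : Fin d → Z → Kb) (E : Z →₀ ℕ) (c : Fin d → Kb) :
    eval c (pePoly η E) = E.prod fun z k => (∑ i, c i * η i z) ^ k := by
  unfold pePoly
  rw [map_finsuppProd]
  apply Finsupp.prod_congr
  intro z _
  rw [map_pow, map_sum]
  congr 1
  apply Finset.sum_congr rfl
  intro i _
  rw [map_mul, eval_C, eval_X, mul_comm]

theorem pePoly_smul {d : ℕ} (η : Fin d → Z → Kb) (hη : ∀ i (σ : GQ) z, η i (σ • z) = σ (η i z))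
    (E : Z →₀ ℕ) (σ : GQ) :
    pePoly η (E.mapDomain (σ • ·)) = map (σ : Kb →+* Kb) (pePoly η E) := by
  unfold pePoly
  rw [Finsupp.prod_mapDomain_index_inj (MulAction.injective σ), map_finsuppProd]
  apply Finsupp.prod_congr
  intro z _
  rw [map_pow, map_sum]
  congr 1
  apply Finset.sum_congr rfl
  intro i _
  rw [map_mul, map_C, map_X, hη]
  rfl

theorem coeff_pePoly_mem {d : ℕ} (η : Fin d → Z → Kb) (E : Z →₀ ℕ)
    (hA : ∀ i, ∀ z ∈ E.support, η i z ∈ A) (μ : Fin d →₀ ℕ) : coeff μ (pePoly η E) ∈ A := by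
  have h : pePoly η E ∈ (map (A.subtype) : MvPolynomial (Fin d) A →+* MvPolynomial (Fin d) Kb).range := by
    unfold pePoly Finsupp.prod
    apply Subring.prod_mem
    intro z hz
    apply Subring.pow_mem
    apply Subring.sum_mem
    intro i _
    refine ⟨C (⟨η i z, hA i z hz⟩ : A) * X i, ?_⟩
    rw [map_mul, map_C, map_X]
    rfl
  obtain ⟨Q, hQ⟩ := h
  rw [← hQ, coeff_map]
  exact (coeff μ Q).2

/-- **the norm lemma**. -/
theorem prodEval_mem_OA [Finite Y] {d : ℕ} (η : Fin d → Z → Kb)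
    (hη : ∀ i (σ : GQ) z, η i (σ • z) = σ (η i z)) (𝔈 : Y → Z →₀ ℕ)
    (h𝔈 : ∀ (σ : GQ) y, 𝔈 (σ • y) = (𝔈 y).mapDomain (σ • ·))
    (hA : ∀ i y, ∀ z ∈ (𝔈 y).support, η i z ∈ A) (c : Fin d → Kb) (hc : ∀ i, c i ∈ A) :
    (fun y => (𝔈 y).prod fun z k => (∑ i, c i * η i z) ^ k) ∈ OA A Y := by
  classical
  have := Fintype.ofFinite Y
  let U : Finset (Fin d →₀ ℕ) := Finset.univ.biUnion fun y : Y => (pePoly η (𝔈 y)).support
  have hmon : ∀ μ : Fin d →₀ ℕ, (∏ i ∈ μ.support, c i ^ μ i) ∈ A := fun μ =>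
    Subring.prod_mem A.toSubring fun i _ => Subring.pow_mem A.toSubring (hc i) _
  have key : (fun y => (𝔈 y).prod fun z k => (∑ i, c i * η i z) ^ k) =
      ∑ μ ∈ U, (⟨_, hmon μ⟩ : A) • (fun y => coeff μ (pePoly η (𝔈 y))) := by
    funext y
    rw [← eval_pePoly, eval_eq, Finset.sum_apply]
    rw [Finset.sum_subset (s₂ := U)]
    · apply Finset.sum_congr rfl
      intro μ _
      rw [smul_apply_OA, mul_comm]
    · intro μ hμ
      exact Finset.mem_biUnion.2 ⟨y, Finset.mem_univ y, hμ⟩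
    · intro μ _ hμ
      rw [notMem_support_iff.1 hμ, zero_mul]
  rw [key]
  refine Submodule.sum_mem _ fun μ _ => Submodule.smul_mem _ _ (IsEqA.mem_OA ⟨fun σ y => ?_, fun y => ?_⟩)
  · show coeff μ (pePoly η (𝔈 (σ • y))) = σ (coeff μ (pePoly η (𝔈 y)))
    rw [h𝔈, pePoly_smul η hη, coeff_map]
    rfl
  · exact coeff_pePoly_mem η _ (fun i z hz => hA i y z hz) μ

end Fermat.Agent.S19
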