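import Fermat.Agent.S19.Integ.Den
import Fermat.Agent.S19.Integ.ProdEval

set_option autoImplicit false

/-!
# S19 / INTEG / Core : `y ↦ g(E_y)` lies in `OA` for `g = ∑ c_i h_i`, `c_i ∈ A`, `h_i` rational
-/

noncomputable section

namespace Fermat.Agent.S19

open AlgebraicCurve ModularCurve
open Fermat.Agent.S24 (Kb FN IsFF1)
open Fermat.Agent.GES (GQ galF)
open Fermat.Agent.S17.WMW (aG)
open Fermat.Agent.S18 (IntA SmallA)
open Fermat.Agent.DIV
open Fermat.Agent.RL (pt Eff LSpace)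

variable (N : ℕ) [NeZero N]

/-- the action of `G_ℚ` on places. -/
@[reducible] def placeAction : MulAction GQ (Place Kb (FN N)) :=
  MulAction.compHom _ (arithmeticGalois (modularFunctionFieldFull N))

theorem valAt_rat {u : FN N} (hu : IsRat u) (σ : GQ) (z : Place Kb (FN N)) :
    valAt (hFF N) (aG N σ • z) u = σ (valAt (hFF N) z u) := by
  have h1 := valAt_smul (hFF N) z (aG N σ) u
  have h2 : aG N σ • u = u := hu σ
  rw [h2] at h1
  exact h1

/-- the effective part as an `ℕ`-valued divisor. -/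
def EpN (y : JZero N) : Place Kb (FN N) →₀ ℕ := (Ep N y).mapRange Int.toNat rfl

theorem EpN_apply (y : JZero N) (z : Place Kb (FN N)) : ((EpN N y z : ℕ) : ℤ) = Ep N y z := by
  unfold EpN
  rw [Finsupp.mapRange_apply, Int.toNat_of_nonneg (eff_Ep N y z)]

theorem EpN_smul (σ : GQ) (y : JZero N) :
    EpN N (σ • y) = (EpN N y).mapDomain (aG N σ • ·) := by
  ext w
  obtain ⟨z, rfl⟩ : ∃ z, aG N σ • z = w := ⟨(aG N σ)⁻¹ • w, smul_inv_smul _ _⟩
  rw [Finsupp.mapDomain_apply (MulAction.injective (aG N σ))]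
  have h1 : ((EpN N (σ • y) (aG N σ • z) : ℕ) : ℤ) = ((EpN N y z : ℕ) : ℤ) := by
    rw [EpN_apply, EpN_apply, Ep_smul, SemilinearAut.divisor_smul_apply_smul]
  exact_mod_cast h1

theorem mem_SE_of_EpN {m : ℤ} (y : TM N m) {z : Place Kb (FN N)} (hz : z ∈ (EpN N y.1).support) :
    z ∈ SE N m := by
  right
  refine ⟨y, ?_⟩
  rw [Finsupp.mem_support_iff] at hz
  intro h0
  apply hz
  have := EpN_apply N y.1 z
  rw [h0] at this
  exact_mod_cast this

/-- `g(E_y) = ∏_{z ∈ E_y^+} g(z) / g(∞)^deg`. -/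
theorem evD_Ed (y : JZero N) (g : FN N) :
    evD (hFF N) (Ed N y) g = ((EpN N y).prod fun z k => valAt (hFF N) z g ^ k) *
      (valAt (hFF N) (oo N) g ^ (Divisor.degree (Ep N y)).toNat)⁻¹ := by
  classical
  have hdeg : 0 ≤ Divisor.degree (Ep N y) :=
    Fermat.Agent.RL.degree_nonneg_of_eff (hFF N) (eff_Ep N y)
  have e : Ed N y = Ep N y + Finsupp.single (oo N) (-Divisor.degree (Ep N y)) := by
    unfold Ed
    rw [sub_eq_add_neg, Finsupp.smul_single, smul_eq_mul, mul_one, ← Finsupp.single_neg]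
  have hdisj : Disjoint (Ep N y).support (Finsupp.single (oo N) (-Divisor.degree (Ep N y))).support := by
    rw [Finset.disjoint_left]
    intro z hz hz'
    have h1 := Finsupp.support_single_subset hz'
    rw [Finset.mem_singleton] at h1
    rw [h1, Finsupp.mem_support_iff, Ep_oo] at hz
    exact hz rfl
  unfold evD
  rw [e, Finsupp.prod_add_index_of_disjoint hdisj, Finsupp.prod_single_index (zpow_zero _)]
  congr 1
  · unfold EpN
    rw [Finsupp.prod_mapRange_index (fun _ => pow_zero _)]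
    apply Finsupp.prod_congr
    intro z _
    rw [← zpow_natCast, Int.toNat_of_nonneg (eff_Ep N y z)]
  · rw [zpow_neg, ← zpow_natCast, Int.toNat_of_nonneg hdeg]

theorem num_core (m : ℤ) (hm : 0 < m) (A : ValuationSubring Kb) {ℓ : ℕ} {B : Divisor Kb (FN N)}
    {d : ℕ} {h : Fin d → FN N} {pos : Fin d → ℤ} (H : IsEch N ℓ B h pos)
    (hB : ∀ Q ∈ SE N m, B Q ≤ 0) (hval : ∀ i, ∀ Q ∈ SE N m, valAt (hFF N) Q (h i) ∈ A)
    (c : Fin d → Kb) (hc : ∀ i, c i ∈ A)
    (hunit : ∀ Q ∈ SE N m, valAt (hFF N) Q (∑ i, algebraMap Kb (FN N) (c i) * h i) ≠ 0 ∧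
      (valAt (hFF N) Q (∑ i, algebraMap Kb (FN N) (c i) * h i))⁻¹ ∈ A) :
    (fun y : TM N m => evD (hFF N) (Ed N y.1) (∑ i, algebraMap Kb (FN N) (c i) * h i)) ∈
        OA A (TM N m) ∧
      ∀ y : TM N m, evD (hFF N) (Ed N y.1) (∑ i, algebraMap Kb (FN N) (c i) * h i) ≠ 0 ∧
        (evD (hFF N) (Ed N y.1) (∑ i, algebraMap Kb (FN N) (c i) * h i))⁻¹ ∈ A := by
  classical
  have hfin := finite_TM N hm.ne'
  letI := placeAction N
  set g : FN N := ∑ i, algebraMap Kb (FN N) (c i) * h i with hg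
  have hgval : ∀ Q ∈ SE N m, valAt (hFF N) Q g = ∑ i, c i * valAt (hFF N) Q (h i) := fun Q hQ =>
    ig_valAt_sum (hFF N) Q Finset.univ c h fun i _ => H.mem_place (hB Q hQ) i
  have hgA : ∀ Q ∈ SE N m, valAt (hFF N) Q g ∈ A := fun Q hQ => by
    rw [hgval Q hQ]
    exact sum_mem fun i _ => A.mul_mem _ _ (hc i) (hval i Q hQ)
  -- the two families
  set η : Fin d → Place Kb (FN N) → Kb := fun i z => valAt (hFF N) z (h i) with hη
  have hηeq : ∀ i (σ : GQ) z, η i (σ • z) = σ (η i z) := fun i σ z => valAt_rat N (H.rat i) σ z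
  set E1 : TM N m → Place Kb (FN N) →₀ ℕ := fun y => EpN N y.1 with hE1
  set E2 : TM N m → Place Kb (FN N) →₀ ℕ :=
    fun y => Finsupp.single (oo N) (Divisor.degree (Ep N y.1)).toNat with hE2
  have hE1eq : ∀ (σ : GQ) y, E1 (σ • y) = (E1 y).mapDomain (σ • ·) := fun σ y => EpN_smul N σ y.1
  have hE2eq : ∀ (σ : GQ) y, E2 (σ • y) = (E2 y).mapDomain (σ • ·) := fun σ y => by
    simp only [hE2]
    rw [Finsupp.mapDomain_single, coe_smul_TM, degree_Ep_smul]
    congr 1
    exact (smul_oo N σ).symm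
  have hE1S : ∀ y, ∀ z ∈ (E1 y).support, z ∈ SE N m := fun y z hz => mem_SE_of_EpN N y hz
  have hE2S : ∀ y, ∀ z ∈ (E2 y).support, z ∈ SE N m := fun y z hz => by
    have h1 := Finsupp.support_single_subset hz
    rw [Finset.mem_singleton] at h1
    exact Or.inl h1
  have hP1 := prodEval_mem_OA (A := A) η hηeq E1 hE1eq (fun i y z hz => hval i z (hE1S y z hz)) c hc
  have hP2 := prodEval_mem_OA (A := A) η hηeq E2 hE2eq (fun i y z hz => hval i z (hE2S y z hz)) c hc
  -- rewrite in terms of `g`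
  have e1 : ∀ y, ((E1 y).prod fun z k => (∑ i, c i * η i z) ^ k) =
      (EpN N y.1).prod fun z k => valAt (hFF N) z g ^ k := fun y =>
    Finsupp.prod_congr fun z hz => by rw [hgval z (hE1S y z hz)]
  have e2 : ∀ y, ((E2 y).prod fun z k => (∑ i, c i * η i z) ^ k) =
      valAt (hFF N) (oo N) g ^ (Divisor.degree (Ep N y.1)).toNat := fun y => by
    simp only [hE2]
    rw [Finsupp.prod_single_index (h := fun z k => (∑ i, c i * η i z) ^ k) (pow_zero _),
      hgval _ (Or.inl rfl)]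
  simp only [e1] at hP1
  simp only [e2] at hP2
  have hoo := hunit (oo N) (Or.inl rfl)
  have h20 : ∀ y : TM N m, valAt (hFF N) (oo N) g ^ (Divisor.degree (Ep N y.1)).toNat ≠ 0 :=
    fun y => pow_ne_zero _ hoo.1
  have h2i : ∀ y : TM N m, (valAt (hFF N) (oo N) g ^ (Divisor.degree (Ep N y.1)).toNat)⁻¹ ∈ A :=
    fun y => by rw [← inv_pow]; exact pow_mem hoo.2 _
  have h10 : ∀ y : TM N m, ((EpN N y.1).prod fun z k => valAt (hFF N) z g ^ k) ≠ 0 := fun y =>
    Finset.prod_ne_zero_iff.2 fun z hz => pow_ne_zero _ (hunit z (hE1S y z hz)).1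
  have h1i : ∀ y : TM N m, ((EpN N y.1).prod fun z k => valAt (hFF N) z g ^ k)⁻¹ ∈ A := fun y => by
    unfold Finsupp.prod
    rw [← Finset.prod_inv_distrib]
    exact prod_mem fun z hz => by rw [← inv_pow]; exact pow_mem (hunit z (hE1S y z hz)).2 _
  refine ⟨?_, fun y => ?_⟩
  · have e : (fun y : TM N m => evD (hFF N) (Ed N y.1) g) =
        (fun y : TM N m => (EpN N y.1).prod fun z k => valAt (hFF N) z g ^ k) *
          (fun y : TM N m => valAt (hFF N) (oo N) g ^ (Divisor.degree (Ep N y.1)).toNat)⁻¹ := by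
      funext y
      rw [evD_Ed]
      rfl
    rw [e]
    exact mul_mem_OA hP1 (inv_mem_OA hP2 h20 h2i)
  · rw [evD_Ed]
    refine ⟨mul_ne_zero (h10 y) (inv_ne_zero (h20 y)), ?_⟩
    rw [mul_inv, inv_inv]
    exact A.mul_mem _ _ (h1i y) (pow_mem (hgA _ (Or.inl rfl)) _)

end Fermat.Agent.S19
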