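import Fermat.Agent.S19.Integ.Phi
import Fermat.Agent.S19.Integ.Alg

set_option autoImplicit false

/-!
# S19 / INTEG / Den : the denominator `y ↦ φ_y(P)` of Weil's formula
-/

noncomputable section

namespace Fermat.Agent.S19

open AlgebraicCurve ModularCurve
open Fermat.Agent.S24 (Kb FN IsFF1)
open Fermat.Agent.GES (GQ galF)
open Fermat.Agent.S17.WMW (aG)
open Fermat.Agent.S18 (IntA SmallA)
open Fermat.Agent.DIV
open Fermat.Agent.RL (pt Eff LSpace)

variable (N : ℕ) [NeZero N]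

theorem not_smallA_one (A : ValuationSubring Kb) : ¬ SmallA A ((1 : FN N) : LaurentSeries Kb) := by
  intro h
  have h0 := h 0
  have e : ((1 : FN N) : LaurentSeries Kb).coeff 0 = 1 := by
    show (1 : LaurentSeries Kb).coeff 0 = 1
    simp
  rw [e] at h0
  exact Fermat.Agent.S18.one_notMem_nonunits A h0

theorem intA_one (A : ValuationSubring Kb) : IntA A ((1 : FN N) : LaurentSeries Kb) :=
  Fermat.Agent.GES.IntA.one

variable {N} in
theorem GInt.of_intA {A : ValuationSubring Kb} {u : FN N} (h : IntA A u.1) : GInt A u :=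
  ⟨u, 1, h, intA_one N A, not_smallA_one N A, mul_one u⟩

variable {N} in
theorem GInt.inv_of {A : ValuationSubring Kb} {u : FN N} (h : IntA A u.1) (h' : ¬ SmallA A u.1) :
    GInt A u⁻¹ := by
  have h0 : u ≠ 0 := by
    rintro rfl
    exact h' fun n => by
      show (0 : LaurentSeries Kb).coeff n ∈ A.nonunits
      rw [HahnSeries.coeff_zero]; exact Fermat.Agent.S18.zero_mem_nonunits A
  exact ⟨1, u, intA_one N A, h, h', inv_mul_cancel₀ h0⟩

/-- data produced by `LatStatement`. -/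
structure IsEch (ℓ : ℕ) (B : Divisor Kb (FN N)) {d : ℕ} (h : Fin d → FN N) (pos : Fin d → ℤ) :
    Prop where
  rat : ∀ i, IsRat (h i)
  mem : ∀ i, h i ∈ LSpace B
  coef : ∀ i n, ∃ r : Rl ℓ, (h i).1.coeff n = algebraMap (Rl ℓ) Kb r
  ech : ∀ i j, (h i).1.coeff (pos j) = if i = j then 1 else 0
  span : ∀ u ∈ LSpace B, ∃ c : Fin d → Kb, u = ∑ i, algebraMap Kb (FN N) (c i) * h i

variable {N}

theorem IsEch.coeff_sum {ℓ : ℕ} {B : Divisor Kb (FN N)} {d : ℕ} {h : Fin d → FN N}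
    {pos : Fin d → ℤ} (H : IsEch N ℓ B h pos) (c : Fin d → Kb) (j : Fin d) :
    ((∑ i, algebraMap Kb (FN N) (c i) * h i : FN N) : LaurentSeries Kb).coeff (pos j) = c j := by
  rw [coe_sum_coeff]
  simp only [H.ech, mul_ite, mul_one, mul_zero]
  rw [Finset.sum_ite_eq' Finset.univ j, if_pos (Finset.mem_univ j)]

theorem IsEch.eq_sum {ℓ : ℕ} {B : Divisor Kb (FN N)} {d : ℕ} {h : Fin d → FN N}
    {pos : Fin d → ℤ} (H : IsEch N ℓ B h pos) {u : FN N} (hu : u ∈ LSpace B) :
    u = ∑ i, algebraMap Kb (FN N) (u.1.coeff (pos i)) * h i := by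
  obtain ⟨c, hc⟩ := H.span u hu
  have : ∀ i, u.1.coeff (pos i) = c i := fun i => by rw [hc]; exact H.coeff_sum c i
  simp only [this]
  exact hc

theorem IsEch.intA {ℓ : ℕ} (hℓ : ℓ.Prime) {B : Divisor Kb (FN N)} {d : ℕ} {h : Fin d → FN N}
    {pos : Fin d → ℤ} (H : IsEch N ℓ B h pos) {A : ValuationSubring Kb} (hA : A.LiesOverPrime ℓ)
    (i : Fin d) : IntA A (h i).1 := fun n => by
  obtain ⟨r, hr⟩ := H.coef i n
  rw [hr]; exact Rl_mem_A hℓ hA r

theorem IsEch.intA_sum {ℓ : ℕ} (hℓ : ℓ.Prime) {B : Divisor Kb (FN N)} {d : ℕ} {h : Fin d → FN N}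
    {pos : Fin d → ℤ} (H : IsEch N ℓ B h pos) {A : ValuationSubring Kb} (hA : A.LiesOverPrime ℓ)
    (c : Fin d → Kb) (hc : ∀ i, c i ∈ A) :
    IntA A ((∑ i, algebraMap Kb (FN N) (c i) * h i : FN N) : LaurentSeries Kb) := fun n => by
  rw [coe_sum_coeff]
  exact sum_mem fun i _ => A.mul_mem _ _ (hc i) (H.intA hℓ hA i n)

/-- regularity of the basis at a place outside the polar divisor. -/
theorem IsEch.mem_place {ℓ : ℕ} {B : Divisor Kb (FN N)} {d : ℕ} {h : Fin d → FN N}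
    {pos : Fin d → ℤ} (H : IsEch N ℓ B h pos) {P : Place Kb (FN N)} (hP : B P ≤ 0) (i : Fin d) :
    h i ∈ P.toValuationSubring := by
  rcases H.mem i with h0 | h1
  · rw [h0]; exact zero_mem _
  · exact Fermat.Agent.S24.mem_of_ord_nonneg P (by have := h1 P; omega)

theorem IsEch.pole {ℓ : ℕ} {B : Divisor Kb (FN N)} {d : ℕ} {h : Fin d → FN N}
    {pos : Fin d → ℤ} (H : IsEch N ℓ B h pos) {Z : Place Kb (FN N)} {i : Fin d}
    (hZ : Z.ord (h i) < 0) : 0 < B Z := by
  rcases H.mem i with h0 | h1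
  · rw [h0, Place.ord_zero] at hZ; omega
  · have := h1 Z; omega

variable (N)

theorem den (ℓ : ℕ) [hℓ : Fact ℓ.Prime] (m : ℤ) (hm : 0 < m) (hL1 : L1Statement N ℓ)
    (hLat : LatStatement N ℓ) (hNorm : NormStatement) (A : ValuationSubring Kb)
    (hA : A.LiesOverPrime ℓ) :
    ∃ φ' : TM N m → FN N, (∀ y, IsDiv (φ' y) (m • Ed N y.1)) ∧
      ∀ P : Place Kb (FN N), (∀ Q ∈ SE N m, ¬ Close A (jv N P) (jv N Q)) →
        (fun y => valAt (hFF N) P (φ' y)) ∈ OA A (TM N m) ∧
          ∀ y, valAt (hFF N) P (φ' y) ≠ 0 ∧ (valAt (hFF N) P (φ' y))⁻¹ ∈ A := by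
  classical
  have hfin := finite_TM N hm.ne'
  have := Fintype.ofFinite (TM N m)
  have hdeg : ∀ y : JZero N, 0 ≤ Divisor.degree (Ep N y) := fun y =>
    Fermat.Agent.RL.degree_nonneg_of_eff (hFF N) (eff_Ep N y)
  set c : ℤ := m * ∑ y : TM N m, Divisor.degree (Ep N y.1) with hc
  set B₁ : Divisor Kb (FN N) := c • pt (oo N) with hB₁
  have hB₁oo : B₁ (oo N) = c := by
    rw [hB₁, Finsupp.smul_apply, Finsupp.single_apply, if_pos rfl]; simp
  have hB₁ne : ∀ Z, Z ≠ oo N → B₁ Z = 0 := fun Z hZ => by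
    rw [hB₁, Finsupp.smul_apply, Finsupp.single_apply, if_neg (Ne.symm hZ), smul_zero]
  have hstab : ∀ σ : GQ, aG N σ • B₁ = B₁ := fun σ => by
    rw [hB₁, smul_comm, SemilinearAut.smul_single, smul_oo]
  obtain ⟨d, h, pos, h1, h2, h3, h4, h5⟩ := hLat B₁ hstab (fun Z hZ => by
    left
    by_contra hne
    rw [hB₁ne Z hne] at hZ
    exact lt_irrefl _ hZ)
  have H : IsEch N ℓ B₁ h pos := ⟨h1, h2, h3, h4, h5⟩
  have hphimem : ∀ y : TM N m, phi N m y ∈ LSpace B₁ := by
    intro y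
    right
    intro v
    rw [(isDiv_phi N m y).2 v, Finsupp.smul_apply, smul_eq_mul]
    by_cases hv : v = oo N
    · rw [hv, hB₁oo, Ed_apply_oo, hc]
      have h6 : Divisor.degree (Ep N y.1) ≤ ∑ y : TM N m, Divisor.degree (Ep N y.1) :=
        Finset.single_le_sum (f := fun y : TM N m => Divisor.degree (Ep N y.1))
          (fun y _ => hdeg y.1) (Finset.mem_univ y)
      nlinarith
    · rw [hB₁ne v hv, Ed_apply_of_ne N y.1 hv, add_zero]
      exact mul_nonneg hm.le (eff_Ep N y.1 v)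
  set β : TM N m → Fin d → Kb := fun y i => (phi N m y).1.coeff (pos i) with hβ
  have hβeq : ∀ (σ : GQ) y i, β (σ • y) i = σ (β y i) := fun σ y i => by
    simp only [hβ]
    rw [← galF_phi, coeff_galF]
  have hphisum : ∀ y, phi N m y = ∑ i, algebraMap Kb (FN N) (β y i) * h i := fun y =>
    H.eq_sum (hphimem y)
  have hβne : ∀ y, ∃ i, β y i ≠ 0 := by
    intro y
    by_contra hcon
    push Not at hcon
    apply (isDiv_phi N m y).1
    rw [hphisum y]
    exact Finset.sum_eq_zero fun i _ => by rw [hcon i, map_zero, zero_mul]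
  obtain ⟨μ, hμeq, hμ0, hμA⟩ := hNorm ℓ (TM N m) (smooth_TM N m) d β hβeq hβne
  have hsum : ∀ y, algebraMap Kb (FN N) (μ y) * phi N m y =
      ∑ i, algebraMap Kb (FN N) (μ y * β y i) * h i := fun y => by
    conv_lhs => rw [hphisum y]
    rw [Finset.mul_sum]
    exact Finset.sum_congr rfl fun i _ => by rw [map_mul, mul_assoc]
  refine ⟨fun y => algebraMap Kb (FN N) (μ y) * phi N m y,
    fun y => (isDiv_phi N m y).const_mul N (hμ0 y), fun P hP => ?_⟩
  have hPoo : P ≠ oo N := by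
    rintro rfl
    exact hP (oo N) (Or.inl rfl) (Close.refl A _)
  have hPE : ∀ y : TM N m, Ep N y.1 P = 0 := by
    intro y
    by_contra hne
    exact hP P (Or.inr ⟨y, hne⟩) (Close.refl A _)
  have hreg : ∀ i, h i ∈ P.toValuationSubring := fun i => H.mem_place (hB₁ne P hPoo).le i
  have hval : ∀ y, valAt (hFF N) P (algebraMap Kb (FN N) (μ y) * phi N m y) =
      ∑ i, (μ y * β y i) * valAt (hFF N) P (h i) := fun y => by
    rw [hsum y]
    exact ig_valAt_sum (hFF N) P Finset.univ _ h fun i _ => hreg i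
  have hhA : ∀ i, valAt (hFF N) P (h i) ∈ A := fun i =>
    hL1 A hA (h i) (GInt.of_intA (H.intA hℓ.out hA i)) P fun Z hZ => by
      have hZoo : Z = oo N := by
        by_contra hne
        have := H.pole hZ
        rw [hB₁ne Z hne] at this
        exact lt_irrefl _ this
      rw [hZoo]
      exact hP (oo N) (Or.inl rfl)
  refine ⟨?_, fun y => ?_⟩
  · have e : (fun y => valAt (hFF N) P (algebraMap Kb (FN N) (μ y) * phi N m y)) =
        ∑ i, (⟨_, hhA i⟩ : A) • (fun y => μ y * β y i) := by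
      funext y
      rw [hval y, Finset.sum_apply]
      exact Finset.sum_congr rfl fun i _ => by rw [smul_apply_OA, mul_comm]
    rw [e]
    refine Submodule.sum_mem _ fun i _ => Submodule.smul_mem _ _ (IsEqA.mem_OA ⟨fun σ y => ?_, fun y => ?_⟩)
    · show μ (σ • y) * β (σ • y) i = σ (μ y * β y i)
      rw [hμeq, hβeq, map_mul]
    · exact (hμA A hA y).1 i
  · have hD := (isDiv_phi N m y).const_mul N (hμ0 y)
    have hord : P.ord (algebraMap Kb (FN N) (μ y) * phi N m y) = 0 := by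
      rw [hD.2 P, Finsupp.smul_apply, Ed_apply_of_ne N y.1 hPoo, hPE y, smul_zero]
    refine ⟨ig_valAt_ne_zero (hFF N) P hD.1 hord, ?_⟩
    rw [← ig_valAt_inv (hFF N) P hD.1 hord]
    have hint : IntA A (algebraMap Kb (FN N) (μ y) * phi N m y).1 := by
      rw [hsum y]
      exact H.intA_sum hℓ.out hA _ (hμA A hA y).1
    have hns : ¬ SmallA A (algebraMap Kb (FN N) (μ y) * phi N m y).1 := by
      obtain ⟨i₀, hi₀⟩ := (hμA A hA y).2
      intro hs
      apply hi₀
      have := hs (pos i₀)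
      rw [hsum y, H.coeff_sum] at this
      exact this
    refine hL1 A hA _ (GInt.inv_of hint hns) P fun Z hZ => ?_
    rw [Place.ord_inv, hD.2 Z, Finsupp.smul_apply, smul_eq_mul] at hZ
    have hEd : 0 < Ed N y.1 Z := by
      by_contra hcon
      rw [not_lt] at hcon
      nlinarith
    have hZoo : Z ≠ oo N := by
      rintro rfl
      rw [Ed_apply_oo] at hEd
      have := hdeg y.1
      omega
    rw [Ed_apply_of_ne N y.1 hZoo] at hEd
    exact hP Z (Or.inr ⟨y, hEd.ne'⟩)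

end Fermat.Agent.S19
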