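import Fermat.Agent.S19.Integ.PolyJ
import Fermat.Agent.S19.Integ.Core

set_option autoImplicit false

/-!
# S19 / INTEG / Num : the numerator `y ↦ f(E_y)` of Weil's formula
-/

noncomputable section

namespace Fermat.Agent.S19

open AlgebraicCurve ModularCurve
open Fermat.Agent.S24 (Kb FN IsFF1 jF)
open Fermat.Agent.GES (GQ galF)
open Fermat.Agent.S17.WMW (aG)
open Fermat.Agent.S18 (IntA SmallA)
open Fermat.Agent.DIV
open Fermat.Agent.RL (pt Eff LSpace)

variable {N : ℕ} [NeZero N]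

theorem ig_GInt_mul {A : ValuationSubring Kb} {u v : FN N} (hu : GInt A u) (hv : GInt A v) :
    GInt A (u * v) := by
  obtain ⟨a, b, ha, hb, hb', e⟩ := hu
  obtain ⟨a', b', ha', hb2, hb2', e'⟩ := hv
  exact ⟨a * a', b * b', Fermat.Agent.GES.IntA.mul ha ha', Fermat.Agent.GES.IntA.mul hb hb2,
    Fermat.Agent.GES.not_smallA_mul hb hb2 hb' hb2', by rw [← e, ← e']; ring⟩

theorem ig_isRat_pow {u : FN N} (hu : IsRat u) (n : ℕ) : IsRat (u ^ n) := fun σ => by
  rw [map_pow, hu σ]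

theorem ig_ord_rat {u : FN N} (hu : IsRat u) (σ : GQ) (v : Place Kb (FN N)) :
    ((aG N σ)⁻¹ • v).ord u = v.ord u := by
  have h1 := SemilinearAut.ord_smul (aG N σ) ((aG N σ)⁻¹ • v) u
  rw [smul_inv_smul] at h1
  have h2 : aG N σ • u = u := hu σ
  rw [h2] at h1
  exact h1.symm

/-- multiplicativity of `g ↦ g(E_y)` for functions which are units on `SE`. -/
theorem evD_Ed_mul {m : ℤ} (y : TM N m) {f w : FN N} (hf0 : f ≠ 0) (hw0 : w ≠ 0)
    (hf : ∀ Q ∈ SE N m, Q.ord f = 0) (hw : ∀ Q ∈ SE N m, Q.ord w = 0) :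
    evD (hFF N) (Ed N y.1) (f * w) = evD (hFF N) (Ed N y.1) f * evD (hFF N) (Ed N y.1) w := by
  have hmul : ∀ Q ∈ SE N m, valAt (hFF N) Q (f * w) = valAt (hFF N) Q f * valAt (hFF N) Q w :=
    fun Q hQ => valAt_mul _ _ (Fermat.Agent.S24.mem_of_ord_nonneg Q (hf Q hQ).ge)
      (Fermat.Agent.S24.mem_of_ord_nonneg Q (hw Q hQ).ge)
  rw [evD_Ed, evD_Ed, evD_Ed, hmul _ (Or.inl rfl)]
  have e : ((EpN N y.1).prod fun z k => valAt (hFF N) z (f * w) ^ k) =
      ((EpN N y.1).prod fun z k => valAt (hFF N) z f ^ k) *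
        ((EpN N y.1).prod fun z k => valAt (hFF N) z w ^ k) := by
    rw [← Finsupp.prod_mul]
    exact Finsupp.prod_congr fun z hz => by rw [hmul z (mem_SE_of_EpN N y hz), mul_pow]
  rw [e, mul_pow, mul_inv]
  ring

variable (N)

theorem num (ℓ : ℕ) [hℓ : Fact ℓ.Prime] (m : ℤ) (hm : 0 < m) (hL1 : L1Statement N ℓ)
    (hQ : QIntStatement N ℓ) (hLat : LatStatement N ℓ) (hPch : PchStatement)
    (A : ValuationSubring Kb) (hA : A.LiesOverPrime ℓ) (D : Divisor Kb (FN N))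
    (hfar : ∀ P, D P ≠ 0 → ∀ Q ∈ SE N m, ¬ Close A (jv N P) (jv N Q))
    (f : FN N) (hf : IsDiv f (m • D)) (hfG : GInt A f) (hfG' : GInt A f⁻¹) :
    (fun y : TM N m => evD (hFF N) (Ed N y.1) f) ∈ OA A (TM N m) := by
  classical
  have hfinM := finite_TM N hm.ne'
  have hSEfin := SE_finite N hm.ne'
  set T : Finset Kb := hSEfin.toFinset.image (fun Q => (jv N Q).getD 0) with hTdef
  have hT : ∀ Q ∈ SE N m, ∀ τ, jv N Q = some τ → τ ∈ T := fun Q hQ τ h => by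
    rw [hTdef, Finset.mem_image]
    exact ⟨Q, hSEfin.mem_toFinset.2 hQ, by rw [h]; rfl⟩
  obtain ⟨P, hPm, hPd, hPfar⟩ := hPch ℓ T
  set R : Multiset Kb := (P.map (Int.castRingHom Kb)).roots with hR
  have hRA : ∀ ρ ∈ R, ρ ∈ A := fun ρ hρ =>
    Fermat.Agent.S18.DVR.mem_of_isIntegral A (root_spec P hPm hρ).2
  have hRfar : ∀ ρ ∈ R, ∀ Q ∈ SE N m, ¬ Close A (jv N Q) (some ρ) := by
    intro ρ hρ Q hQ hcl
    rcases hj : jv N Q with _ | τ
    · rw [hj] at hcl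
      exact hcl (hRA ρ hρ)
    · rw [hj] at hcl
      exact hPfar A hA ρ (root_spec P hPm hρ).1 τ (hT Q hQ τ hj) hcl.symm
  set a : Place Kb (FN N) → Kb := fun Z => (jv N Z).getD 0 with ha_def
  have ha : ∀ Z, D Z ≠ 0 → jv N Z = some (a Z) ∧ a Z ∈ A := by
    intro Z hZ
    have h1 := hfar Z hZ (oo N) (Or.inl rfl)
    rw [jv_oo] at h1
    rcases hj : jv N Z with _ | τ
    · rw [hj] at h1; exact absurd trivial h1
    · rw [hj] at h1
      have e : a Z = τ := by simp only [ha_def, hj]; rfl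
      rw [e]
      exact ⟨rfl, by by_contra hn; exact h1 hn⟩
  set e : Place Kb (FN N) → ℕ := fun Z => (m * D Z).natAbs with he
  set m₁ : ℕ := ∑ Z ∈ D.support, e Z with hm₁
  set dP : ℕ := P.natDegree with hdP
  set sθ : Multiset Kb := ∑ Z ∈ D.support, (e Z * dP) • ({a Z} : Multiset Kb) with hsθ
  set sP : Multiset Kb := m₁ • R with hsP
  have hcardP : Multiset.card sP = m₁ * dP := by
    rw [hsP, Multiset.card_nsmul, hR, card_roots_map P hPm]
  have hcardθ : Multiset.card sθ = m₁ * dP := by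
    rw [hsθ, Multiset.card_sum, hm₁, Finset.sum_mul]
    exact Finset.sum_congr rfl fun Z _ => by
      rw [Multiset.card_nsmul, Multiset.card_singleton, mul_one]
  have hmemθ : ∀ b ∈ sθ, ∃ Z, D Z ≠ 0 ∧ b = a Z := by
    intro b hb
    rw [hsθ, Multiset.mem_sum] at hb
    obtain ⟨Z, hZ, hb⟩ := hb
    have := Multiset.mem_of_mem_nsmul hb
    rw [Multiset.mem_singleton] at this
    exact ⟨Z, Finsupp.mem_support_iff.1 hZ, this⟩
  have hθA : ∀ b ∈ sθ, b ∈ A := fun b hb => by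
    obtain ⟨Z, hZ, rfl⟩ := hmemθ b hb
    exact (ha Z hZ).2
  have hPA : ∀ b ∈ sP, b ∈ A := fun b hb => hRA b (Multiset.mem_of_mem_nsmul hb)
  have hcount : ∀ Z, D Z ≠ 0 → e Z ≤ Multiset.count (a Z) sθ := by
    intro Z hZ
    rw [hsθ, Multiset.count_sum']
    have h1 : Multiset.count (a Z) ((e Z * dP) • ({a Z} : Multiset Kb)) ≤
        ∑ Z' ∈ D.support, Multiset.count (a Z) ((e Z' * dP) • ({a Z'} : Multiset Kb)) :=
      Finset.single_le_sum (f := fun Z' => Multiset.count (a Z) ((e Z' * dP) • ({a Z'} : Multiset Kb)))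
        (fun _ _ => Nat.zero_le _) (Finsupp.mem_support_iff.2 hZ)
    refine le_trans ?_ h1
    rw [Multiset.count_nsmul, Multiset.count_singleton_self, mul_one]
    exact Nat.le_mul_of_pos_right _ hPd
  set Gθ : FN N := Gs N sθ with hGθ
  set GP : FN N := Gs N sP with hGP
  have hGθ0 : Gθ ≠ 0 := Gs_ne_zero N sθ
  have hGP0 : GP ≠ 0 := Gs_ne_zero N sP
  obtain ⟨hθI, hθS⟩ := intA_Gs N (A := A) sθ hθA
  obtain ⟨hPI, hPS⟩ := intA_Gs N (A := A) sP hPA
  set w : FN N := Gθ / GP with hw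
  have hw0 : w ≠ 0 := div_ne_zero hGθ0 hGP0
  have hordw : ∀ Z : Place Kb (FN N), Z.ord w = Z.ord Gθ - Z.ord GP := fun Z =>
    Fermat.Agent.S24.ord_div Z hGθ0 hGP0
  have hw_none : ∀ Z : Place Kb (FN N), jv N Z = none → Z.ord w = 0 := fun Z hZ => by
    rw [hordw, hGθ, hGP, ord_Gs_of_none hZ, ord_Gs_of_none hZ, hcardθ, hcardP, sub_self]
  have hGPrat : IsRat GP := by
    rw [hGP, hsP, Gs_nsmul, hR, ← aeval_eq_Gs N P hPm]
    exact ig_isRat_pow (isRat_aeval N P) _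
  -- the polar divisor
  obtain ⟨E, hE, -⟩ := Fermat.Agent.RL.exists_div (hFF N) (inv_ne_zero hGP0)
  set B₂ : Divisor Kb (FN N) := Fermat.Agent.RL.boundNeg E with hB₂def
  have hB₂ : ∀ v, B₂ v = max 0 (v.ord GP) := fun v => by
    rw [hB₂def, Fermat.Agent.RL.boundNeg_apply, hE, Place.ord_inv, neg_neg]
  have hB₂pos : ∀ Z, 0 < B₂ Z → ∃ ρ ∈ R, jv N Z = some ρ := by
    intro Z hZ
    rw [hB₂] at hZ
    have hpos : 0 < Z.ord GP := by
      rcases lt_max_iff.1 hZ with h | h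
      · exact absurd h (lt_irrefl _)
      · exact h
    rcases hj : jv N Z with _ | τ
    · exfalso
      rw [hGP, ord_Gs_of_none hj] at hpos
      have := jv_none_iff.1 hj
      have h2 : (0 : ℤ) ≤ (Multiset.card sP : ℤ) := by positivity
      nlinarith
    · exact ⟨τ, Multiset.mem_of_mem_nsmul (mem_of_ord_Gs_pos hj sP hpos), rfl⟩
  have hstab : ∀ σ : GQ, aG N σ • B₂ = B₂ := fun σ => by
    ext v
    rw [SemilinearAut.divisor_smul_apply, hB₂, hB₂, ig_ord_rat hGPrat]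
  obtain ⟨d, h, pos, h1, h2, h3, h4, h5⟩ := hLat B₂ hstab (fun Z hZ => by
    right
    obtain ⟨ρ, hρ, hj⟩ := hB₂pos Z hZ
    exact ⟨ρ, (root_spec P hPm hρ).2.tower_top, hj⟩)
  have H : IsEch N ℓ B₂ h pos := ⟨h1, h2, h3, h4, h5⟩
  -- `SE` avoids the polar divisor
  have hBSE : ∀ Q ∈ SE N m, B₂ Q ≤ 0 := by
    intro Q hQ
    by_contra hcon
    rw [not_le] at hcon
    obtain ⟨ρ, hρ, hj⟩ := hB₂pos Q hcon
    exact hRfar ρ hρ Q hQ (hj ▸ Close.refl A _)
  have hval : ∀ i, ∀ Q ∈ SE N m, valAt (hFF N) Q (h i) ∈ A := fun i Q hQ =>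
    hL1 A hA (h i) (GInt.of_intA (H.intA hℓ.out hA i)) Q fun Z hZ => by
      obtain ⟨ρ, hρ, hj⟩ := hB₂pos Z (H.pole hZ)
      rw [hj]
      exact hRfar ρ hρ Q hQ
  -- `D` vanishes on `SE` and at the cusps
  have hDSE : ∀ Q ∈ SE N m, D Q = 0 := by
    intro Q hQ
    by_contra hne
    exact hfar Q hne Q hQ (Close.refl A _)
  have hDnone : ∀ Z, jv N Z = none → D Z = 0 := by
    intro Z hZ
    by_contra hne
    rw [(ha Z hne).1] at hZ
    exact Option.some_ne_none _ hZ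
  have hordf : ∀ Z : Place Kb (FN N), Z.ord f = m * D Z := fun Z => by
    rw [hf.2 Z, Finsupp.smul_apply, smul_eq_mul]
  -- membership in `L(B₂)`
  have hwmem : w ∈ LSpace B₂ := by
    right
    intro Z
    rw [hB₂]
    rcases hj : jv N Z with _ | τ
    · rw [hw_none Z hj, zero_add]; exact le_max_left _ _
    · rw [hordw]
      have h6 := ord_Gs_nonneg hj sθ
      have h7 := le_max_right 0 (Z.ord GP)
      rw [← hGθ] at h6
      omega
  set u : FN N := f * w with hu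
  have hu0 : u ≠ 0 := mul_ne_zero hf.1 hw0
  have hordu : ∀ Z : Place Kb (FN N), Z.ord u = m * D Z + Z.ord w := fun Z => by
    rw [hu, Z.ord_mul hf.1 hw0, hordf]
  have humem : u ∈ LSpace B₂ := by
    right
    intro Z
    rw [hB₂, hordu]
    rcases hj : jv N Z with _ | τ
    · rw [hw_none Z hj, hDnone Z hj, mul_zero, zero_add, zero_add]; exact le_max_left _ _
    · rw [hordw]
      have h7 := le_max_right 0 (Z.ord GP)
      by_cases hDZ : D Z = 0
      · have h6 := ord_Gs_nonneg hj sθ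
        rw [← hGθ] at h6
        rw [hDZ, mul_zero]
        omega
      · have h8 := (ha Z hDZ).1
        rw [hj] at h8
        have h9 : τ = a Z := Option.some.inj h8
        have h6 := count_le_ord_Gs hj sθ
        rw [← hGθ, h9] at h6
        have h10 : ((e Z : ℕ) : ℤ) ≤ (Multiset.count (a Z) sθ : ℤ) := by exact_mod_cast hcount Z hDZ
        have h11 : ((e Z : ℕ) : ℤ) = |m * D Z| := by simp only [he]; exact Int.natCast_natAbs _
        have h12 := neg_abs_le (m * D Z)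
        omega
  -- Gauss integrality
  have hwG : GInt A w := ⟨Gθ, GP, hθI, hPI, hPS, div_mul_cancel₀ _ hGP0⟩
  have hwG' : GInt A w⁻¹ := ⟨GP, Gθ, hPI, hθI, hθS, by rw [hw, inv_div, div_mul_cancel₀ _ hGθ0]⟩
  have huG : GInt A u := ig_GInt_mul hfG hwG
  have hpoleB : ∀ g ∈ LSpace B₂, ∀ Z : Place Kb (FN N), Z.ord g < 0 →
      Z = oo N ∨ ∃ a ∈ A, jv N Z = some a := by
    intro g hg Z hZ
    right
    rcases hg with h0 | hg
    · rw [h0, Place.ord_zero] at hZ; exact absurd hZ (lt_irrefl _)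
    · obtain ⟨ρ, hρ, hj⟩ := hB₂pos Z (by have := hg Z; omega)
      exact ⟨ρ, hRA ρ hρ, hj⟩
  have hwI : IntA A w.1 := hQ A hA w hwG (hpoleB w hwmem)
  have huI : IntA A u.1 := hQ A hA u huG (hpoleB u humem)
  -- orders on `SE`
  have hfSE : ∀ Q ∈ SE N m, Q.ord f = 0 := fun Q hQ => by rw [hordf, hDSE Q hQ, mul_zero]
  have hθfar : ∀ Q ∈ SE N m, ∀ Z : Place Kb (FN N), ∀ τ, jv N Z = some τ → τ ∈ sθ →
      ¬ Close A (jv N Q) (jv N Z) := by
    intro Q hQ Z τ hj hτ hcl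
    obtain ⟨Z', hZ', rfl⟩ := hmemθ τ hτ
    rw [hj, ← (ha Z' hZ').1] at hcl
    exact hfar Z' hZ' Q hQ hcl.symm
  have hwSE : ∀ Q ∈ SE N m, Q.ord w = 0 := by
    intro Q hQ
    rcases hj : jv N Q with _ | τ
    · exact hw_none Q hj
    · rw [hordw]
      have h6 : Q.ord Gθ = 0 := by
        by_contra hne
        have hpos : 0 < Q.ord (Gs N sθ) := lt_of_le_of_ne (ord_Gs_nonneg hj sθ) (Ne.symm hne)
        exact hθfar Q hQ Q τ hj (mem_of_ord_Gs_pos hj sθ hpos) (Close.refl A _)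
      have h7 : Q.ord GP = 0 := by
        have h8 := hBSE Q hQ
        rw [hB₂] at h8
        have h9 := le_max_right 0 (Q.ord GP)
        have h10 := ord_Gs_nonneg hj sP
        rw [← hGP] at h10
        omega
      rw [h6, h7, sub_self]
  have huSE : ∀ Q ∈ SE N m, Q.ord u = 0 := fun Q hQ => by
    rw [hordu, hDSE Q hQ, hwSE Q hQ, mul_zero, add_zero]
  -- unit values
  have hwinv : ∀ Q ∈ SE N m, (valAt (hFF N) Q w)⁻¹ ∈ A := fun Q hQ => by
    rw [← ig_valAt_inv (hFF N) Q hw0 (hwSE Q hQ)]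
    refine hL1 A hA _ hwG' Q fun Z hZ => ?_
    rw [Place.ord_inv] at hZ
    rcases hj : jv N Z with _ | τ
    · rw [hw_none Z hj] at hZ; exact absurd hZ (lt_irrefl _)
    · rw [← hj]
      have hpos : 0 < Z.ord (Gs N sθ) := by
        have h6 := ord_Gs_nonneg hj sP
        rw [hordw] at hZ
        rw [← hGP] at h6
        rw [← hGθ]
        omega
      exact hθfar Q hQ Z τ hj (mem_of_ord_Gs_pos hj sθ hpos)
  have hfinv : ∀ Q ∈ SE N m, (valAt (hFF N) Q f)⁻¹ ∈ A := fun Q hQ => by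
    rw [← ig_valAt_inv (hFF N) Q hf.1 (hfSE Q hQ)]
    refine hL1 A hA _ hfG' Q fun Z hZ hcl => ?_
    rw [Place.ord_inv, hordf] at hZ
    have hDZ : D Z ≠ 0 := by rintro h0; rw [h0, mul_zero] at hZ; exact lt_irrefl _ hZ
    exact hfar Z hDZ Q hQ hcl.symm
  have huinv : ∀ Q ∈ SE N m, (valAt (hFF N) Q u)⁻¹ ∈ A := fun Q hQ => by
    rw [hu, valAt_mul _ _ (Fermat.Agent.S24.mem_of_ord_nonneg Q (hfSE Q hQ).ge)
      (Fermat.Agent.S24.mem_of_ord_nonneg Q (hwSE Q hQ).ge), mul_inv]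
    exact A.mul_mem _ _ (hfinv Q hQ) (hwinv Q hQ)
  -- apply the core lemma to `u` and `w`
  have hueq := H.eq_sum humem
  have hweq := H.eq_sum hwmem
  have Cu := num_core N m hm A H hBSE hval (fun i => u.1.coeff (pos i)) (fun i => huI _)
    (fun Q hQ => by
      rw [← hueq]
      exact ⟨ig_valAt_ne_zero (hFF N) Q hu0 (huSE Q hQ), huinv Q hQ⟩)
  have Cw := num_core N m hm A H hBSE hval (fun i => w.1.coeff (pos i)) (fun i => hwI _)
    (fun Q hQ => by
      rw [← hweq]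
      exact ⟨ig_valAt_ne_zero (hFF N) Q hw0 (hwSE Q hQ), hwinv Q hQ⟩)
  rw [← hueq] at Cu
  rw [← hweq] at Cw
  have efin : (fun y : TM N m => evD (hFF N) (Ed N y.1) f) =
      (fun y : TM N m => evD (hFF N) (Ed N y.1) u) *
        (fun y : TM N m => evD (hFF N) (Ed N y.1) w)⁻¹ := by
    funext y
    have h6 := evD_Ed_mul y hf.1 hw0 hfSE hwSE
    show _ = evD (hFF N) (Ed N y.1) u * (evD (hFF N) (Ed N y.1) w)⁻¹
    rw [hu, h6, mul_assoc, mul_inv_cancel₀ (Cw.2 y).1, mul_one]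
  rw [efin]
  exact mul_mem_OA Cu.1 (inv_mem_OA Cw.1 (fun y => (Cw.2 y).1) fun y => (Cw.2 y).2)

end Fermat.Agent.S19
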