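import Fermat.Agent.S19.Integ.Val

set_option autoImplicit false

/-!
# S19 / INTEG / Phi : the canonical function `φ_y`, `div φ_y = m E_y`, leading coefficient `1`
-/

noncomputable section

namespace Fermat.Agent.S19

open AlgebraicCurve ModularCurve
open Fermat.Agent.S24 (Kb FN IsFF1)
open Fermat.Agent.GES (GQ galF)
open Fermat.Agent.S17.WMW (aG)
open Fermat.Agent.S18 (IntA SmallA)
open Fermat.Agent.DIV

variable (N : ℕ) [NeZero N]

theorem coe_ne_zero {f : FN N} (hf : f ≠ 0) : f.1 ≠ 0 := fun h => hf (Subtype.ext h)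

theorem lc_const_mul {c : Kb} (hc : c ≠ 0) {f : FN N} (hf : f ≠ 0) :
    (algebraMap Kb (FN N) c * f).1.leadingCoeff = c * f.1.leadingCoeff := by
  have h1 : ((algebraMap Kb (FN N) c * f : FN N) : LaurentSeries Kb) = HahnSeries.C c * f.1 := by
    show (algebraMap Kb (FN N) c).1 * f.1 = _
    congr 1
    have e3 : ((algebraMap Kb (FN N) c : FN N) : LaurentSeries Kb)
        = algebraMap Kb (LaurentSeries Kb) c := rfl
    rw [e3, algebraMap_laurentSeries_eq_single]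
    rfl
  have hC : (HahnSeries.C c : LaurentSeries Kb) ≠ 0 := by
    exact (map_ne_zero (HahnSeries.C : Kb →+* LaurentSeries Kb)).2 hc
  have h2 : (algebraMap Kb (FN N) c * f).1.order = f.1.order := by
    rw [h1, HahnSeries.order_mul hC (coe_ne_zero N hf), HahnSeries.order_C, zero_add]
  rw [HahnSeries.leadingCoeff_eq, HahnSeries.leadingCoeff_eq, h2, coe_algebraMap_mul]

theorem IsDiv.const_mul {f : FN N} {D : Divisor Kb (FN N)} (h : IsDiv f D) {c : Kb} (hc : c ≠ 0) :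
    IsDiv (algebraMap Kb (FN N) c * f) D := by
  refine ⟨mul_ne_zero ((map_ne_zero _).2 hc) h.1, fun v => ?_⟩
  rw [v.ord_mul ((map_ne_zero _).2 hc) h.1, Fermat.Agent.S24.ord_algebraMap, zero_add, h.2]

theorem IsDiv.eq_const_mul {f g : FN N} {D : Divisor Kb (FN N)} (hf : IsDiv f D) (hg : IsDiv g D) :
    ∃ c : Kb, c ≠ 0 ∧ f = algebraMap Kb (FN N) c * g := by
  have h1 : f / g ∈ Fermat.Agent.RL.LSpace (0 : Divisor Kb (FN N)) := by
    right
    intro v
    rw [Fermat.Agent.S24.ord_div v hf.1 hg.1, hf.2, hg.2]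
    simp
  obtain ⟨c, hc⟩ := Fermat.Agent.RL.onlyConst_zero (hFF N) _ h1
  refine ⟨c, ?_, ?_⟩
  · rintro rfl
    rw [map_zero] at hc
    exact div_ne_zero hf.1 hg.1 hc.symm
  · rw [hc, div_mul_cancel₀ _ hg.1]

theorem IsDiv.galF {f : FN N} {D : Divisor Kb (FN N)} (h : IsDiv f D) (σ : GQ) :
    IsDiv (galF N σ f) (aG N σ • D) := by
  refine ⟨(map_ne_zero _).2 h.1, fun v => ?_⟩
  have h1 := SemilinearAut.ord_smul (aG N σ) ((aG N σ)⁻¹ • v) f
  rw [smul_inv_smul] at h1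
  rw [SemilinearAut.divisor_smul_apply, ← h.2]
  exact h1

theorem exists_phi (m : ℤ) (y : TM N m) :
    ∃ φ : FN N, IsDiv φ (m • Ed N y.1) ∧ φ.1.leadingCoeff = 1 := by
  obtain ⟨φ, hφ⟩ := exists_isDiv_Ed N m y
  have hl : φ.1.leadingCoeff ≠ 0 := HahnSeries.leadingCoeff_ne_zero.2 (coe_ne_zero N hφ.1)
  refine ⟨algebraMap Kb (FN N) (φ.1.leadingCoeff)⁻¹ * φ, hφ.const_mul N (inv_ne_zero hl), ?_⟩
  rw [lc_const_mul N (inv_ne_zero hl) hφ.1, inv_mul_cancel₀ hl]

/-- the canonical `φ_y`. -/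
def phi (m : ℤ) (y : TM N m) : FN N := (exists_phi N m y).choose

theorem isDiv_phi (m : ℤ) (y : TM N m) : IsDiv (phi N m y) (m • Ed N y.1) :=
  (exists_phi N m y).choose_spec.1

theorem lc_phi (m : ℤ) (y : TM N m) : (phi N m y).1.leadingCoeff = 1 :=
  (exists_phi N m y).choose_spec.2

theorem galF_phi (m : ℤ) (σ : GQ) (y : TM N m) : galF N σ (phi N m y) = phi N m (σ • y) := by
  have h1 : IsDiv (galF N σ (phi N m y)) (m • Ed N (σ • y).1) := by
    have := (isDiv_phi N m y).galF N σ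
    rwa [smul_comm, ← Ed_smul] at this
  obtain ⟨c, hc, e⟩ := h1.eq_const_mul N (isDiv_phi N m (σ • y))
  have h2 : (galF N σ (phi N m y)).1.leadingCoeff = 1 := by
    rw [Fermat.Agent.GES.coe_galF, Fermat.Agent.S18.KPack.leadingCoeff_coeffMap, lc_phi]
    exact map_one _
  rw [e, lc_const_mul N hc (isDiv_phi N m (σ • y)).1, lc_phi, mul_one] at h2
  rw [e, h2, map_one, one_mul]

end Fermat.Agent.S19
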