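import Fermat.Agent.S19.Integ.Den

set_option autoImplicit false

/-!
# S19 / INTEG / PolyJ : products of linear factors `j - a`
-/

noncomputable section

namespace Fermat.Agent.S19

open AlgebraicCurve ModularCurve
open Fermat.Agent.S24 (Kb FN IsFF1 jF)
open Fermat.Agent.GES (GQ galF)
open Fermat.Agent.S17.WMW (aG)
open Fermat.Agent.S18 (IntA SmallA)
open Fermat.Agent.DIV
open Fermat.Agent.RL (pt Eff LSpace)

variable (N : ℕ) [NeZero N]

/-- `j - a`. -/
def Lf (a : Kb) : FN N := jF N - algebraMap Kb (FN N) a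

theorem coe_const_coeff (a : Kb) (n : ℤ) :
    ((algebraMap Kb (FN N) a : FN N) : LaurentSeries Kb).coeff n = if n = 0 then a else 0 := by
  have h := coe_algebraMap_mul (N := N) a 1 n
  rw [mul_one] at h
  rw [h]
  have e : ((1 : FN N) : LaurentSeries Kb).coeff n = if n = 0 then 1 else 0 := by
    show (1 : LaurentSeries Kb).coeff n = _
    rw [HahnSeries.coeff_one]
    congr
  rw [e]
  split_ifs <;> simp

theorem intA_jF (A : ValuationSubring Kb) : IntA A (jF N).1 := fun n => by
  rw [coe_jF, coeff_jqModC_eq_intCast]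
  exact int_mem_A A _

theorem intA_const {A : ValuationSubring Kb} {a : Kb} (ha : a ∈ A) :
    IntA A (algebraMap Kb (FN N) a).1 := fun n => by
  rw [coe_const_coeff]
  split_ifs
  · exact ha
  · exact A.zero_mem

theorem intA_Lf {A : ValuationSubring Kb} {a : Kb} (ha : a ∈ A) : IntA A (Lf N a).1 :=
  Fermat.Agent.GES.IntA.sub (intA_jF N A) (intA_const N ha)

theorem not_smallA_Lf (A : ValuationSubring Kb) (a : Kb) : ¬ SmallA A (Lf N a).1 := by
  intro h
  have h1 := h (-1)
  have e : (Lf N a).1.coeff (-1) = 1 := by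
    show ((jF N).1 - (algebraMap Kb (FN N) a).1).coeff (-1) = 1
    rw [HahnSeries.coeff_sub, coe_const_coeff, if_neg (by decide), sub_zero, coe_jF,
      coeff_jqModC_neg_one]
  rw [e] at h1
  exact Fermat.Agent.S18.one_notMem_nonunits A h1

theorem Lf_ne_zero (a : Kb) : Lf N a ≠ 0 := by
  intro h
  exact Fermat.Agent.S24.transcendental_jF N ((sub_eq_zero.1 h) ▸ isAlgebraic_algebraMap a)

variable {N}

theorem jv_none_iff {Z : Place Kb (FN N)} : jv N Z = none ↔ Z.ord (jF N) < 0 :=
  valOpt_eq_none_iff _ _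

theorem jv_some_iff {Z : Place Kb (FN N)} {τ : Kb} :
    jv N Z = some τ ↔ jF N ∈ Z.toValuationSubring ∧ valAt (hFF N) Z (jF N) = τ :=
  valOpt_eq_some_iff _ _

theorem ord_Lf_of_none {Z : Place Kb (FN N)} (h : jv N Z = none) (a : Kb) :
    Z.ord (Lf N a) = Z.ord (jF N) := by
  rw [jv_none_iff] at h
  -- `ord (j - a) = min`
  have hj0 : jF N ≠ 0 := by rintro h0; rw [h0, Place.ord_zero] at h; exact lt_irrefl _ h
  have h1 := Fermat.Agent.S24.min_le_ord_add Z (f := jF N) (g := -algebraMap Kb (FN N) a)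
    (by rw [← sub_eq_add_neg]; exact Lf_ne_zero N a)
  have h2 := Fermat.Agent.S24.min_le_ord_add Z (f := Lf N a) (g := algebraMap Kb (FN N) a)
    (by unfold Lf; rw [sub_add_cancel]; exact hj0)
  have e1 : Z.ord (-algebraMap Kb (FN N) a) = 0 := by
    rw [← map_neg]; exact Fermat.Agent.S24.ord_algebraMap Z _
  have e2 : Z.ord (algebraMap Kb (FN N) a) = 0 := Fermat.Agent.S24.ord_algebraMap Z _
  rw [← sub_eq_add_neg, e1] at h1
  have e3 : Lf N a + algebraMap Kb (FN N) a = jF N := by unfold Lf; rw [sub_add_cancel]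
  rw [e3, e2] at h2
  have h1' : min (Z.ord (jF N)) 0 ≤ Z.ord (Lf N a) := h1
  rcases min_le_iff.1 h2 with h3 | h3
  · rw [min_eq_left h.le] at h1'
    omega
  · omega

theorem Lf_mem {Z : Place Kb (FN N)} {τ : Kb} (h : jv N Z = some τ) (a : Kb) :
    Lf N a ∈ Z.toValuationSubring :=
  sub_mem (jv_some_iff.1 h).1 (Z.algebraMap_mem' a)

theorem valAt_Lf {Z : Place Kb (FN N)} {τ : Kb} (h : jv N Z = some τ) (a : Kb) :
    valAt (hFF N) Z (Lf N a) = τ - a := by
  unfold Lf
  rw [valAt_sub _ _ (jv_some_iff.1 h).1 (Z.algebraMap_mem' a), (jv_some_iff.1 h).2,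
    valAt_algebraMap]

theorem ord_Lf_nonneg {Z : Place Kb (FN N)} {τ : Kb} (h : jv N Z = some τ) (a : Kb) :
    0 ≤ Z.ord (Lf N a) := Fermat.Agent.S24.ord_nonneg_of_mem Z (Lf_mem h a)

theorem ord_Lf_pos_iff {Z : Place Kb (FN N)} {τ : Kb} (h : jv N Z = some τ) (a : Kb) :
    0 < Z.ord (Lf N a) ↔ τ = a := by
  rw [← valAt_eq_zero_iff (hFF N) Z (Lf_mem h a) (Lf_ne_zero N a), valAt_Lf h, sub_eq_zero]

variable (N)

/-- `∏_{a ∈ s} (j - a)`. -/
def Gs (s : Multiset Kb) : FN N := (s.map (Lf N)).prod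

theorem Gs_zero : Gs N 0 = 1 := by simp [Gs]

theorem Gs_cons (a : Kb) (s : Multiset Kb) : Gs N (a ::ₘ s) = Lf N a * Gs N s := by simp [Gs]

theorem Gs_nsmul (n : ℕ) (s : Multiset Kb) : Gs N (n • s) = Gs N s ^ n := by
  unfold Gs
  rw [Multiset.map_nsmul, Multiset.prod_nsmul]

theorem Gs_add (s t : Multiset Kb) : Gs N (s + t) = Gs N s * Gs N t := by
  unfold Gs
  rw [Multiset.map_add, Multiset.prod_add]

theorem Gs_ne_zero (s : Multiset Kb) : Gs N s ≠ 0 := by
  induction s using Multiset.induction_on with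
  | empty => rw [Gs_zero]; exact one_ne_zero
  | cons a s ih => rw [Gs_cons]; exact mul_ne_zero (Lf_ne_zero N a) ih

theorem intA_Gs {A : ValuationSubring Kb} (s : Multiset Kb) (hs : ∀ a ∈ s, a ∈ A) :
    IntA A (Gs N s).1 ∧ ¬ SmallA A (Gs N s).1 := by
  induction s using Multiset.induction_on with
  | empty => rw [Gs_zero]; exact ⟨intA_one N A, not_smallA_one N A⟩
  | cons a s ih =>
    rw [Gs_cons]
    obtain ⟨h1, h2⟩ := ih fun b hb => hs b (Multiset.mem_cons_of_mem hb)
    have ha := hs a (Multiset.mem_cons_self a s)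
    exact ⟨Fermat.Agent.GES.IntA.mul (intA_Lf N ha) h1,
      Fermat.Agent.GES.not_smallA_mul (intA_Lf N ha) h1 (not_smallA_Lf N A a) h2⟩

variable {N}

theorem ord_Gs_of_none {Z : Place Kb (FN N)} (h : jv N Z = none) (s : Multiset Kb) :
    Z.ord (Gs N s) = (Multiset.card s : ℤ) * Z.ord (jF N) := by
  induction s using Multiset.induction_on with
  | empty => rw [Gs_zero]; simp
  | cons a s ih =>
    rw [Gs_cons, Z.ord_mul (Lf_ne_zero N a) (Gs_ne_zero N s), ih, ord_Lf_of_none h,
      Multiset.card_cons]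
    push_cast
    ring

theorem count_le_ord_Gs {Z : Place Kb (FN N)} {τ : Kb} (h : jv N Z = some τ) (s : Multiset Kb) :
    (Multiset.count τ s : ℤ) ≤ Z.ord (Gs N s) := by
  classical
  induction s using Multiset.induction_on with
  | empty => rw [Gs_zero]; simp
  | cons a s ih =>
    rw [Gs_cons, Z.ord_mul (Lf_ne_zero N a) (Gs_ne_zero N s), Multiset.count_cons]
    by_cases ha : τ = a
    · have := (ord_Lf_pos_iff h a).2 ha
      rw [if_pos ha]
      push_cast
      omega
    · have := ord_Lf_nonneg h a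
      rw [if_neg ha]
      push_cast
      omega

theorem ord_Gs_nonneg {Z : Place Kb (FN N)} {τ : Kb} (h : jv N Z = some τ) (s : Multiset Kb) :
    0 ≤ Z.ord (Gs N s) := le_trans (by positivity) (count_le_ord_Gs h s)

theorem mem_of_ord_Gs_pos {Z : Place Kb (FN N)} {τ : Kb} (h : jv N Z = some τ) (s : Multiset Kb)
    (hpos : 0 < Z.ord (Gs N s)) : τ ∈ s := by
  induction s using Multiset.induction_on with
  | empty => rw [Gs_zero] at hpos; simp at hpos
  | cons a s ih =>
    rw [Gs_cons, Z.ord_mul (Lf_ne_zero N a) (Gs_ne_zero N s)] at hpos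
    by_cases ha : τ = a
    · rw [ha]; exact Multiset.mem_cons_self a s
    · have h1 : Z.ord (Lf N a) = 0 := by
        have h2 := ord_Lf_nonneg h a
        have h3 := (ord_Lf_pos_iff h a).not.2 ha
        omega
      rw [h1, zero_add] at hpos
      exact Multiset.mem_cons_of_mem (ih hpos)

variable (N)

/-- `P(j)` for `P ∈ ℤ[X]` monic is `Gs` of its roots. -/
theorem aeval_eq_Gs (P : Polynomial ℤ) (hP : P.Monic) :
    Polynomial.aeval (jF N) P = Gs N (P.map (Int.castRingHom Kb)).roots := by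
  have hm : (P.map (Int.castRingHom Kb)).Monic := hP.map _
  have h1 : P.map (Int.castRingHom Kb) =
      ((P.map (Int.castRingHom Kb)).roots.map fun a => Polynomial.X - Polynomial.C a).prod :=
    (IsAlgClosed.splits _).eq_prod_roots_of_monic hm
  have h2 : Polynomial.aeval (jF N) P = Polynomial.aeval (jF N) (P.map (Int.castRingHom Kb)) := by
    have := Polynomial.aeval_map_algebraMap (A := Kb) (jF N) P
    rw [← this]
    rfl
  rw [h2]
  conv_lhs => rw [h1]
  rw [map_multiset_prod, Multiset.map_map]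
  unfold Gs
  congr 1
  apply Multiset.map_congr rfl
  intro a _
  simp [Lf]

theorem isRat_jF : IsRat (jF N) := fun σ => by
  apply Subtype.ext
  rw [Fermat.Agent.GES.coe_galF, coe_jF]
  exact coeffMap_jqModC _

theorem isRat_aeval (P : Polynomial ℤ) : IsRat (Polynomial.aeval (jF N) P) := fun σ => by
  have h := Polynomial.aeval_algHom_apply ((galF N σ : FN N →+* FN N).toIntAlgHom) (jF N) P
  have e : ((galF N σ : FN N →+* FN N).toIntAlgHom) (jF N) = jF N := isRat_jF N σ
  rw [e] at h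
  exact h.symm

theorem card_roots_map (P : Polynomial ℤ) (hP : P.Monic) :
    Multiset.card (P.map (Int.castRingHom Kb)).roots = P.natDegree := by
  rw [← (IsAlgClosed.splits (P.map (Int.castRingHom Kb))).natDegree_eq_card_roots,
    hP.natDegree_map]

theorem root_spec (P : Polynomial ℤ) (hP : P.Monic) {ρ : Kb}
    (hρ : ρ ∈ (P.map (Int.castRingHom Kb)).roots) : Polynomial.aeval ρ P = 0 ∧ IsIntegral ℤ ρ := by
  have h1 : Polynomial.aeval ρ P = 0 := by
    have := (Polynomial.mem_roots'.1 hρ).2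
    rw [Polynomial.IsRoot.def, Polynomial.eval_map] at this
    exact this
  exact ⟨h1, ⟨P, hP, h1⟩⟩

end Fermat.Agent.S19
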