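import Fermat.Agent.S19.Basic

set_option autoImplicit false

/-!
# S19 / INTEG / Val : more on `valAt`; `ℤ_(ℓ) ⊆ A`; coefficients of linear combinations
-/

noncomputable section

namespace Fermat.Agent.S19

open AlgebraicCurve ModularCurve
open Fermat.Agent.S24 (Kb FN IsFF1)
open Fermat.Agent.GES (GQ galF)
open Fermat.Agent.S17.WMW (aG)
open Fermat.Agent.S18 (IntA SmallA)
open Fermat.Agent.DIV

section General

variable {K F : Type} [Field K] [Field F] [Algebra K F] [IsAlgClosed K] (h : IsFF1 K F)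
  (v : Place K F)

theorem ig_valAt_ne_zero {f : F} (hf0 : f ≠ 0) (hf : v.ord f = 0) : valAt h v f ≠ 0 := by
  have hm : f ∈ v.toValuationSubring := Fermat.Agent.S24.mem_of_ord_nonneg v hf.ge
  intro h0
  have := (valAt_eq_zero_iff h v hm hf0).1 h0
  omega

theorem ig_valAt_inv {f : F} (hf0 : f ≠ 0) (hf : v.ord f = 0) :
    valAt h v f⁻¹ = (valAt h v f)⁻¹ := by
  have hm : f ∈ v.toValuationSubring := Fermat.Agent.S24.mem_of_ord_nonneg v hf.ge
  have hm' : f⁻¹ ∈ v.toValuationSubring :=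
    Fermat.Agent.S24.mem_of_ord_nonneg v (by rw [v.ord_inv, hf, neg_zero])
  have h1 := valAt_mul h v hm hm'
  rw [mul_inv_cancel₀ hf0, valAt_one] at h1
  exact eq_inv_of_mul_eq_one_right h1.symm

theorem ig_valAt_const_mul (c : K) {f : F} (hf : f ∈ v.toValuationSubring) :
    valAt h v (algebraMap K F c * f) = c * valAt h v f := by
  rw [valAt_mul h v (v.algebraMap_mem' c) hf, valAt_algebraMap]

theorem ig_sum_mem {ι : Type} (s : Finset ι) (c : ι → K) (g : ι → F)
    (hg : ∀ i ∈ s, g i ∈ v.toValuationSubring) :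
    ∑ i ∈ s, algebraMap K F (c i) * g i ∈ v.toValuationSubring :=
  sum_mem fun i hi => mul_mem (v.algebraMap_mem' _) (hg i hi)

theorem ig_valAt_sum {ι : Type} (s : Finset ι) (c : ι → K) (g : ι → F)
    (hg : ∀ i ∈ s, g i ∈ v.toValuationSubring) :
    valAt h v (∑ i ∈ s, algebraMap K F (c i) * g i) = ∑ i ∈ s, c i * valAt h v (g i) := by
  classical
  induction s using Finset.induction_on with
  | empty => simp [valAt_zero]
  | insert a s ha ih =>
    rw [Finset.sum_insert ha, Finset.sum_insert ha,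
      valAt_add h v (mul_mem (v.algebraMap_mem' _) (hg a (Finset.mem_insert_self a s)))
        (ig_sum_mem v s c g fun i hi => hg i (Finset.mem_insert_of_mem hi)),
      ig_valAt_const_mul h v _ (hg a (Finset.mem_insert_self a s)),
      ih fun i hi => hg i (Finset.mem_insert_of_mem hi)]

end General

/-! ### `ℤ_(ℓ) ⊆ A` -/

theorem int_mem_A (A : ValuationSubring Kb) (n : ℤ) : (n : Kb) ∈ A := intCast_mem A n

theorem Rl_mem_A {ℓ : ℕ} (hℓ : ℓ.Prime) {A : ValuationSubring Kb} (hA : A.LiesOverPrime ℓ)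
    (r : Rl ℓ) : algebraMap (Rl ℓ) Kb r ∈ A := by
  have hr : (r : ℚ).den.Coprime ℓ := r.2
  have e : algebraMap (Rl ℓ) Kb r = ((r : ℚ).num : Kb) * (((r : ℚ).den : ℕ) : Kb)⁻¹ := by
    have h1 : algebraMap (Rl ℓ) Kb r = algebraMap ℚ Kb (r : ℚ) := rfl
    rw [h1]
    conv_lhs => rw [← Rat.num_div_den (r : ℚ)]
    rw [map_div₀, div_eq_mul_inv]
    simp
  rw [e]
  refine A.mul_mem _ _ (int_mem_A A _) ?_
  -- `den` is a unit of `A`
  have hden : (((r : ℚ).den : ℕ) : Kb) ∈ A := natCast_mem A _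
  by_contra hinv
  have hnu : (((r : ℚ).den : ℕ) : Kb) ∈ A.nonunits := by
    rw [ValuationSubring.mem_nonunits_iff_exists_mem_maximalIdeal]
    refine ⟨hden, ?_⟩
    rw [IsLocalRing.mem_maximalIdeal, mem_nonunits_iff]
    intro hu
    apply hinv
    obtain ⟨u, hu⟩ := hu
    have h2 : ((u⁻¹ : (A)ˣ) : A).1 = (((r : ℚ).den : ℕ) : Kb)⁻¹ := by
      have h3 : ((u : A) : Kb) * (((u⁻¹ : (A)ˣ) : A) : Kb) = 1 := by
        have := congrArg Subtype.val (u.mul_inv)
        exact this
      rw [hu] at h3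
      exact eq_inv_of_mul_eq_one_right h3
    rw [← h2]
    exact ((u⁻¹ : (A)ˣ) : A).2
  -- Bezout
  have hb := Nat.isCoprime_iff_coprime.2 hr
  obtain ⟨a, b, hab⟩ := hb
  have h1 : ((a : ℤ) : Kb) * (((r : ℚ).den : ℕ) : Kb) + ((b : ℤ) : Kb) * ((ℓ : ℕ) : Kb) = 1 := by
    have := congrArg (fun z : ℤ => (z : Kb)) hab
    push_cast at this
    exact this
  have h2 : (1 : Kb) ∈ A.nonunits := by
    rw [← h1]
    exact Fermat.Agent.S18.add_mem_nonunits A
      (Fermat.Agent.S18.mul_mem_nonunits A (int_mem_A A a) hnu)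
      (Fermat.Agent.S18.mul_mem_nonunits A (int_mem_A A b) hA)
  rw [ValuationSubring.mem_nonunits_iff] at h2
  simp at h2

/-! ### coefficients -/

variable {N : ℕ} [NeZero N]

theorem coe_algebraMap_mul (c : Kb) (f : FN N) (n : ℤ) :
    ((algebraMap Kb (FN N) c * f : FN N) : LaurentSeries Kb).coeff n = c * f.1.coeff n := by
  have h1 : ((algebraMap Kb (FN N) c * f : FN N) : LaurentSeries Kb) = HahnSeries.C c * f.1 := by
    show (algebraMap Kb (FN N) c).1 * f.1 = _
    congr 1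
    have e3 : ((algebraMap Kb (FN N) c : FN N) : LaurentSeries Kb)
        = algebraMap Kb (LaurentSeries Kb) c := rfl
    rw [e3, algebraMap_laurentSeries_eq_single]
    rfl
  rw [h1, HahnSeries.C_mul_eq_smul, HahnSeries.coeff_smul, smul_eq_mul]

theorem coe_sum_coeff {ι : Type} (s : Finset ι) (c : ι → Kb) (g : ι → FN N) (n : ℤ) :
    ((∑ i ∈ s, algebraMap Kb (FN N) (c i) * g i : FN N) : LaurentSeries Kb).coeff n =
      ∑ i ∈ s, c i * (g i).1.coeff n := by
  classical
  induction s using Finset.induction_on with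
  | empty => simp
  | insert a s ha ih =>
    rw [Finset.sum_insert ha, Finset.sum_insert ha, ← ih, ← coe_algebraMap_mul]
    rfl

theorem coeff_galF (σ : GQ) (f : FN N) (n : ℤ) : (galF N σ f).1.coeff n = σ (f.1.coeff n) := by
  rw [Fermat.Agent.GES.coe_galF]
  rfl

end Fermat.Agent.S19
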